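import Fermat.Agent.Lower.Lift.Defs
import Fermat.Agent.Lower.Lift.HeckeMod.BaseModule
import Fermat.Agent.Lower.Levels.MinimalOrd

/-!
# The automorphic side of level lowering at scalar primes

`exists_base_levels_general`: one base Hecke module at squarefree level `M`, compatible with
modules at all sets of Taylor–Wiles primes and with the twist by a character of `p`-power order at
each auxiliary prime of the level, in both local cases at `p` (flat, ordinary).  Assembled from
the frames of `FLTAgent.Lower.Levels`.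
-/

set_option autoImplicit false
set_option linter.style.haveILetI false

noncomputable section

namespace FLTAgent.Lower.Lift

open IsLocalRing (ResidueField maximalIdeal)
open FLTAgent.Lower FLTAgent.Lower.Levels

local notation "ℚ̄" => AlgebraicClosure ℚ
local notation "Γℚ" => (AlgebraicClosure ℚ ≃ₐ[ℚ] AlgebraicClosure ℚ)

/-- One base, compatible with levels at all sets of auxiliary primes. -/
theorem exists_base_levels_general {p : ℕ} [Fact p.Prime] (hp2 : p ≠ 2)
    {O : Type} [CommRing O] [IsDomain O] [IsDiscreteValuationRing O]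
    [IsAdicComplete (maximalIdeal O) O] [Finite (ResidueField O)] [CharZero O]
    (hp : (p : O) ∈ maximalIdeal O) {M : ℕ} [NeZero M] (hM : Squarefree M)
    {Smin Saux : Finset ℕ} (hprimes : Smin ∪ Saux = M.primeFactors.erase p)
    (hroot : ∀ q ∈ Saux, ∃ c : O, IsPrimitiveRoot c (p ^ padicValNat p (q - 1)))
    (ρbar : ResidualGaloisRep (ResidueField O)) (hgood : GoodResidual p Smin Saux ρbar)
    {loc : LocalType} (hloc : LevelCase p M ρbar loc) (hsys : HasSystem p M ρbar) :
    ∃ B : Base p M ρbar, ∀ q ∈ Saux, ∀ A : ValuationSubring ℚ̄, A.LiesOverPrime q →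
      ∀ σ₀ : Γℚ, IsInertiaGen p q A σ₀ → ∀ (n r : ℕ) (Qv : Fin r → ℕ), Function.Injective Qv →
        (∀ i, IsTWPrime p n ρbar (Qv i) ∧ ¬ Qv i ∣ M ∧ Qv i ≠ p) →
          Nonempty (Level loc Smin Saux B q A σ₀ n Qv) := by
  have h : ResHyp p (levelPrimes p M) ρbar := resHyp_of_good hp2 hp hprimes hgood
  obtain ⟨f⟩ := nonempty_padicInt_hom (O := O) hp
  obtain ⟨d, hd, ⟨F₀⟩⟩ := exists_base_frame h hsys
  haveI : NeZero d := ⟨hd⟩
  obtain ⟨ρX, hX⟩ := (baseX h F₀).exists_rep hp2 hp f h.absIrr h.det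
  refine ⟨Levels.baseOf h F₀ ρX hX, fun q hq A _ σ₀ hσ₀ n r Qv hinj hTW => ?_⟩
  obtain ⟨hqprime, hqp, hqS⟩ := hgood.aux_prime q hq
  haveI : NeZero q := ⟨hqprime.ne_zero⟩
  have hqm : q ∈ M.primeFactors.erase p := hprimes ▸ Finset.mem_union_right Smin hq
  have hqM : q ∣ M := Nat.dvd_of_mem_primeFactors (Finset.mem_of_mem_erase hqm)
  have hQ : AuxHyp p n (levelPrimes p M) ρbar Qv := ⟨hinj, fun i => (hTW i).1, fun i hm => by
    rcases Finset.mem_insert.mp hm with hm | hm
    · exact (hTW i).2.2 hm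
    · exact (hTW i).2.1 (Nat.dvd_of_mem_primeFactors hm)⟩
  haveI : NeZero (∏ i, Qv i) := ⟨hQ.prod_ne_zero⟩
  haveI := isLocalRing_deltaRing (O := O) p n r hp
  obtain ⟨θ', hθ⟩ := hQ.exists_stabEig h
  obtain ⟨η, hη⟩ := hQ.exists_eta (O := O)
  obtain ⟨c₀, hc₀⟩ := hroot q hq
  obtain ⟨χ, hχpow, hχneg, hχsum, hχres⟩ :=
    exists_qChar hp2 hp hqprime (hgood.one_mod q hq) hc₀
  have hyp : LevelHyp p M Smin Saux ρbar n Qv θ' η χ :=
    { p_mem := hp
      squarefree := hM
      primes := hprimes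
      mem := hq
      good := hgood
      aux := hQ
      stab := hθ
      eta := hη
      char := ⟨hqprime, hqM, fun h2 => hqprime.ne_one
        (Nat.isUnit_iff.mp (hM q (sq q ▸ h2))), hχpow, hχneg, hχres⟩
      sum := hχsum }
  obtain ⟨D⟩ := nonempty_auxFrames hp f h Levels.mem_levelPrimes_of_dvd hQ hθ hη hd F₀
  obtain ⟨C⟩ := nonempty_qFrame hp h hθ hη hyp.char D
  obtain ⟨ρP, hP⟩ := (levelP (h := h) hyp D C).exists_rep hp2 hp f h.absIrr h.det
  obtain ⟨ρY, hY⟩ := (levelY (h := h) hyp D).exists_rep hp2 hp f h.absIrr h.det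
  obtain ⟨ρc, hc⟩ := (levelYc (h := h) hyp D C).exists_rep hp2 hp f h.absIrr h.det
  refine nonempty_level hyp D C hP hX hY hc ?_ hc₀ hσ₀
  cases hloc with
  | flat hpM => exact level_flat hyp D C hpM hP
  | ord hpM hno => exact level_ord hyp D C hno hpM hP hY hc

end FLTAgent.Lower.Lift
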