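import Fermat.Agent.Lower.Lift.Defs
import Fermat.Agent.TW.LocalAtP
import Fermat.Agent.TW.Transport
import Fermat.Agent.TW.Unipotent
import Fermat.Agent.TW.Constant
import Fermat.Agent.TW.Global.Count

/-!
# Taylor–Wiles primes for three local types at `p`

`exists_twPrimes_three`: for every `n`, sets of `r` Taylor–Wiles primes such that the traces at
`gf`, `go`, `gb` elements detect the flat, the strictly ordinary and the flat-and-ordinary first
order deformations constant at given places (`Detects`), with the numerical bounds needed for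
patching.  Each case follows from a tangent bound by `exists_detects`, using the local bounds of
`FLTAgent.LocP`.
-/

set_option autoImplicit false
set_option linter.style.haveILetI false

noncomputable section

namespace FLTAgent.Lower.Lift

open FLTAgent.Lower
open scoped Pointwise

local notation "ℚ̄" => AlgebraicClosure ℚ
local notation "Γℚ" => (AlgebraicClosure ℚ ≃ₐ[ℚ] AlgebraicClosure ℚ)

/-- The traces at `σ` detect the deformations to `k[ε]` of type `loc` that are constant at the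
places in `Saux`. -/
def Detects {k : Type} [Field k] {g r : ℕ} (loc : LocalType) (p : ℕ) (Smin Saux : Finset ℕ)
    (ρbar : ResidualGaloisRep k) (A : ℕ → ValuationSubring ℚ̄) (Qv : Fin r → ℕ)
    (σ : Fin g → Γℚ) : Prop :=
  ∀ ρ : GaloisRepAdic (DualNumber k),
    ρ.residual.IsEquiv (ρbar.baseChangeAlong ((IsLocalRing.residue (DualNumber k)).comp
      (algebraMap k (DualNumber k)))) →
    Cond loc p Smin (ramSet p Smin Saux Qv) ρ →
    (∀ l ∈ Saux, ConstantAt ρ (A l)) →
    (∀ j, TrivSqZeroExt.snd (ρ.trace (σ j)) = 0) →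
      ∀ τ : Γℚ, TrivSqZeroExt.snd (ρ.trace τ) = 0

section

variable {k : Type} [Field k] [Finite k] {p : ℕ} [Fact p.Prime] [CharP k p]
  {Smin Saux : Finset ℕ} {ρbar : ResidualGaloisRep k}

/-- The coboundaries at an unramified place have dimension at most `3 - placeWeight`. -/
theorem finrank_coboundaryRange_add_placeWeight_le (hp2 : p ≠ 2)
    (b₀ : Module.Basis (Fin 2) k ρbar.V) {A : ValuationSubring ℚ̄} {l : ℕ} (hl : l.Prime)
    (hA : A.LiesOverPrime l) (hunr : ρbar.IsUnramifiedAt l) :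
    Module.finrank k (LocP.coboundaryRange (TW.barMat ρbar b₀) (A.decompositionSubgroup ℚ)) +
      placeWeight ρbar A ≤ 3 := by
  set M := TW.barMat ρbar b₀
  rw [placeWeight]
  split_ifs with hs
  · have hsM : ∀ τ ∈ A.decompositionSubgroup ℚ, ∃ c : k, M τ = c • 1 := fun τ hτ => by
      obtain ⟨c, hc⟩ := hs τ hτ
      exact ⟨c, by rw [TW.barMat_apply, hc, map_smul, LinearMap.toMatrix_one]⟩
    have h0 : LocP.coboundaryRange M (A.decompositionSubgroup ℚ) = ⊥ := by
      refine eq_bot_iff.mpr ?_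
      rintro _ ⟨X, -, rfl⟩
      exact (Submodule.mem_bot k).mpr (TW.coboundary_eq_zero_of_scalar M hsM X)
    rw [h0, finrank_bot]
  · have hex : ∃ τ ∈ A.decompositionSubgroup ℚ, ∀ c : k, ρbar.ρ τ ≠ c • 1 := by
      by_contra hcon
      push Not at hcon
      exact hs hcon
    obtain ⟨τ, hτ, hns⟩ := hex
    haveI := Fact.mk hl
    refine TW.finrank_coboundaryRange_add_one_le (LocP.two_ne_zero' (p := p) hp2)
      (fun σ hσ ν hν => ?_) hτ fun c hc => hns c ((LinearMap.toMatrix b₀ b₀).injective ?_)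
    · rw [← map_mul, ← map_mul, show σ * ν = σ * ν * σ⁻¹ * ν⁻¹ * (ν * σ) by group, map_mul,
        TW.barMat_apply ρbar b₀ (σ * ν * σ⁻¹ * ν⁻¹),
        hunr A hA _ (LocP.commutator_mem_inertia (p := l) hA hσ hν), LinearMap.toMatrix_one, one_mul]
    · rw [map_smul, LinearMap.toMatrix_one]; exact hc

/-- Detection from the tangent bound, for one local type at `p`. -/
theorem exists_detects (hp2 : p ≠ 2) (hSaux : ∀ l ∈ Saux, l.Prime ∧ l ≠ p ∧ l ∉ Smin)
    (hres : Residual p Smin ρbar) (b₀ : Module.Basis (Fin 2) k ρbar.V)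
    (A : ℕ → ValuationSubring ℚ̄) (hA : ∀ l ∈ Saux, (A l).LiesOverPrime l)
    (loc : LocalType) (dp : ℕ)
    (hloc : ∀ ρ₁ ρ₂ : GaloisRepAdic (DualNumber k), ρ₁.IsEquiv ρ₂ → loc.cond ρ₁ → loc.cond ρ₂)
    (hbound : ∀ P : ValuationSubring ℚ̄, P.LiesOverPrime p →
      TW.LocalTangentBound (TW.barMat ρbar b₀) (P.decompositionSubgroup ℚ)
        (fun c => ∀ hc : TW.IsTangentCocycle (TW.barMat ρbar b₀) c,
          loc.cond (TW.liftRep (TW.factorsFinite_barMat ρbar b₀) hc)) dp)
    {r : ℕ} (Qv : Fin r → ℕ)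
    (hT : TW.TangentBound (TW.barMat ρbar b₀) (insert p (Smin ∪ Saux))
      (Finset.univ.image Qv) r) :
    ∑ l ∈ Saux, placeWeight ρbar (A l) + 4 ≤ r + dp ∧
      ∀ g : ℕ, r + dp ≤ g + (∑ l ∈ Saux, placeWeight ρbar (A l) + 4) →
        ∃ σ : Fin g → Γℚ, Detects loc p Smin Saux ρbar A Qv σ := by
  classical
  set M := TW.barMat ρbar b₀ with hMdef
  have hM := TW.factorsFinite_barMat ρbar b₀
  have hp : p.Prime := Fact.out
  have hex : ∀ l : ℕ, ∃ P : ValuationSubring ℚ̄, (l ∈ Saux → P = A l) ∧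
      (l.Prime → P.LiesOverPrime l) := fun l => by
    by_cases hl : l ∈ Saux
    · exact ⟨A l, fun _ => rfl, fun _ => hA l hl⟩
    by_cases hlp : l.Prime
    · obtain ⟨P, hP⟩ := GalCommon.exists_liesOverPrime hlp
      exact ⟨P, fun h => absurd h hl, fun _ => hP⟩
    · exact ⟨A l, fun _ => rfl, fun h => absurd h hlp⟩
  choose A' hA'aux hA' using hex
  have hmin : ∀ l ∈ Smin, TW.LocalTangentBound M ((A' l).decompositionSubgroup ℚ)
      (fun c => ∀ τ ∈ (A' l).inertiaSubgroupIn ℚ, (c τ * M τ).trace = 0) 3 := by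
    intro l hl
    have hlP := (hres.min_prime l hl).1
    refine TW.localTangentBound_unipotent hp2 hlP (hres.min_prime l hl).2 M hM (A' l)
      (hA' l hlP) (fun τ hτ => ?_) ?_
    · have h := hres.unipotent l hl (A' l) (hA' l hlP) τ hτ
      change LinearMap.charpoly (ρbar.ρ τ) = _ at h
      have h1 := LinearMap.aeval_self_charpoly (ρbar.ρ τ)
      rw [h, map_pow, map_sub, Polynomial.aeval_X, map_one, sq] at h1
      have h2 := congrArg (LinearMap.toMatrix b₀ b₀) h1
      rw [LinearMap.toMatrix_mul, map_sub, LinearMap.toMatrix_one, map_zero] at h2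
      exact h2
    · by_contra hall
      push Not at hall
      refine hres.ramified l hl fun P hP τ hτ => ?_
      obtain ⟨g, hg⟩ := GalCommon.exists_smul_eq_of_liesOverPrime hlP (hA' l hlP) hP
      subst hg
      have h1 := GalCommon.mem_inertia_conj hτ g⁻¹
      rw [inv_smul_smul, inv_inv] at h1
      have h2 := hall _ h1
      rw [map_mul, map_mul, TW.barMat_apply, TW.barMat_apply, TW.barMat_apply] at h2
      have h3 : LinearMap.toMatrix b₀ b₀ (ρbar.ρ g⁻¹ * ρbar.ρ τ * ρbar.ρ g) =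
          LinearMap.toMatrix b₀ b₀ 1 := by
        rw [LinearMap.toMatrix_mul, LinearMap.toMatrix_mul, LinearMap.toMatrix_one]; exact h2
      have h4 := (LinearMap.toMatrix b₀ b₀).injective h3
      calc ρbar.ρ τ = ρbar.ρ g * (ρbar.ρ g⁻¹ * ρbar.ρ τ * ρbar.ρ g) * ρbar.ρ g⁻¹ := by
            simp only [← map_mul]; group
        _ = 1 := by rw [h4, mul_one, ← map_mul, mul_inv_cancel, map_one]
  obtain ⟨Wp, hWpf, hWpd, hWpb, hWpc⟩ := hbound (A' p) (hA' p hp)
  let d : ℕ → ℕ := fun l => if l = p then dp else if l ∈ Smin then 3 else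
    3 - placeWeight ρbar (A l)
  have hpSmin : p ∉ Smin := fun h => (hres.min_prime p h).2 rfl
  have hWex : ∀ l : ℕ, ∃ W : Submodule k ((A' l).decompositionSubgroup ℚ →
      Matrix (Fin 2) (Fin 2) k), l ∈ insert p (Smin ∪ Saux) →
      (Module.Finite k W ∧ Module.finrank k W ≤ d l ∧ ∀ X : Matrix (Fin 2) (Fin 2) k, X.trace = 0 →
        TW.restrictTo ((A' l).decompositionSubgroup ℚ) (TW.coboundary M X) ∈ W) ∧
      ∀ (ρ : GaloisRepAdic (DualNumber k)) (b : Module.Basis (Fin 2) (DualNumber k) ρ.V)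
        (c : Γℚ → Matrix (Fin 2) (Fin 2) k), TW.IsTangentCocycle M c →
        (∀ σ, Deform.matOf ρ b σ = TW.epsMat (M σ) (c σ * M σ)) →
        (l = p → loc.cond ρ) → (l ∈ Smin → ρ.IsUnipotentOnInertiaAt l) →
        (l ∈ Saux → ConstantAt ρ (A l)) →
        TW.restrictTo ((A' l).decompositionSubgroup ℚ) c ∈ W := by
    intro l
    by_cases hlp : l = p
    · subst hlp
      refine ⟨Wp, fun _ => ⟨⟨hWpf, le_of_le_of_eq hWpd (if_pos rfl).symm, hWpb⟩,
        fun ρ b c hc hb hcond _ _ => hWpc c hc fun hc' =>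
          hloc _ _ (TW.isEquiv_liftRep hM hc' ρ b hb) (hcond rfl)⟩⟩
    by_cases hlm : l ∈ Smin
    · obtain ⟨W, h1, h2, h3, h4⟩ := hmin l hlm
      refine ⟨W, fun _ => ⟨⟨h1, le_of_le_of_eq h2 ?_, h3⟩, fun ρ b c hc hb _ huni _ =>
        h4 c hc fun t ht => TW.trace_eq_zero_of_charpoly ρ b hb
          (huni hlm (A' l) (hA' l (hres.min_prime l hlm).1) t ht)⟩⟩
      simp only [d, if_neg hlp, if_pos hlm]
    refine ⟨LocP.coboundaryRange M ((A' l).decompositionSubgroup ℚ), fun hl => ?_⟩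
    have hla : l ∈ Saux := by
      rcases Finset.mem_insert.mp hl with h | h
      · exact absurd h hlp
      · exact (Finset.mem_union.mp h).resolve_left hlm
    haveI : Module.Finite k (LocP.coboundaryRange M ((A' l).decompositionSubgroup ℚ)) :=
      Module.Finite.map _ _
    refine ⟨⟨inferInstance, ?_, fun X hX => LocP.restrict_coboundary_mem M _ hX⟩,
      fun ρ b c _ hb _ _ hconst => ?_⟩
    · have h := finrank_coboundaryRange_add_placeWeight_le (p := p) hp2 b₀ (hSaux l hla).1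
        (hA l hla) (hres.unramified l (hSaux l hla).1 hlm hlp)
      simp only [d, if_neg hlp, if_neg hlm]
      rw [← hA'aux l hla, ← hMdef] at h
      rw [← hA'aux l hla]
      exact Nat.le_sub_of_add_le h
    · obtain ⟨b', hb'⟩ := hconst hla
      obtain ⟨X, hX, heq⟩ := TW.exists_coboundary_of_constant (LocP.two_ne_zero' (p := p) hp2) ρ b hb
        ((A' l).decompositionSubgroup ℚ) b' (fun τ hτ i j => hb' τ (hA'aux l hla ▸ hτ) i j)
      rw [heq]
      exact LocP.restrict_coboundary_mem M _ hX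
  choose W hWspec using hWex
  have hdisj : Disjoint Smin Saux := Finset.disjoint_right.mpr fun l hl => (hSaux l hl).2.2
  have hpS : p ∉ Smin ∪ Saux := fun h => (Finset.mem_union.mp h).elim hpSmin
    fun h => (hSaux p h).2.1 rfl
  have hwt : ∀ l ∈ Saux, placeWeight ρbar (A l) ≤ 3 := fun l _ => by
    rw [placeWeight]; split_ifs <;> omega
  have hsum : ∑ l ∈ insert p (Smin ∪ Saux), d l + ∑ l ∈ Saux, placeWeight ρbar (A l) =
      dp + 3 * Smin.card + 3 * Saux.card := by
    rw [Finset.sum_insert hpS, Finset.sum_union hdisj,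
      Finset.sum_eq_card_nsmul (s := Smin) (b := 3) fun l hl => by
        simp only [d, if_neg (hres.min_prime l hl).2, if_pos hl],
      show d p = dp from if_pos rfl, add_assoc, add_assoc, ← Finset.sum_add_distrib,
      Finset.sum_eq_card_nsmul (s := Saux) (b := 3) fun l hl => by
        simp only [d, if_neg (hSaux l hl).2.1, if_neg (hSaux l hl).2.2]
        exact Nat.sub_add_cancel (hwt l hl)]
    simp [mul_comm, add_assoc]
  have hcard : (insert p (Smin ∪ Saux)).card = 1 + Smin.card + Saux.card := by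
    rw [Finset.card_insert_of_notMem hpS, Finset.card_union_of_disjoint hdisj]
    omega
  have hA'S : ∀ l ∈ insert p (Smin ∪ Saux), (A' l).LiesOverPrime l := fun l hl => by
    rcases Finset.mem_insert.mp hl with rfl | hl
    · exact hA' _ hp
    rcases Finset.mem_union.mp hl with h | h
    · exact hA' _ (hres.min_prime l h).1
    · exact hA' _ (hSaux l h).1
  obtain ⟨hle, hdet⟩ := hT A' hA'S W d fun l hl => (hWspec l hl).1
  refine ⟨by omega, fun g hg => ?_⟩
  obtain ⟨σ, hσ⟩ := hdet g (by omega)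
  refine ⟨σ, fun ρ hr hcond hconst htest τ => ?_⟩
  obtain ⟨b, c, hc, hb⟩ := TW.exists_cocycle_of_rep (p := p) ρbar b₀ ρ hr hcond.det
  rw [TW.trace_snd_of_matOf ρ b hb]
  refine hσ c hc (fun q hq hqS hqQ P hP t ht => TW.cocycle_eq_zero_of_apply_eq_one ρ b hb
    (hcond.unramified q hq ?_ P hP t ht)) (fun l hl => ?_)
    (fun j => (TW.trace_snd_of_matOf ρ b hb (σ j)).symm.trans (htest j)) τ
  · simp only [ramSet, Finset.mem_insert, Finset.mem_union] at hqS ⊢
    tauto
  exact (hWspec l hl).2 ρ b c hc hb (fun _ => hcond.local_p) (fun h => hcond.unipotent l h)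
    (hconst l)

end

/-- Taylor–Wiles primes for the three local types at `p`. -/
theorem exists_twPrimes_three {k : Type} [Field k] [Finite k] {p : ℕ} [Fact p.Prime]
    (hp2 : p ≠ 2) [CharP k p] (Smin Saux : Finset ℕ)
    (hSaux : ∀ l ∈ Saux, l.Prime ∧ l ≠ p ∧ l ∉ Smin)
    (ρbar : ResidualGaloisRep k) (hres : Residual p Smin ρbar)
    (A : ℕ → ValuationSubring ℚ̄) (hA : ∀ l ∈ Saux, (A l).LiesOverPrime l) (avoid : Finset ℕ) :
    ∃ r gf go gb : ℕ,
      gf + ∑ l ∈ Saux, placeWeight ρbar (A l) ≤ r ∧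
      go + ∑ l ∈ Saux, placeWeight ρbar (A l) ≤ r ∧
      gb + 1 + ∑ l ∈ Saux, placeWeight ρbar (A l) ≤ r ∧
      ∀ n : ℕ, ∃ Qv : Fin r → ℕ, Function.Injective Qv ∧
        (∀ i, IsTWPrime p n ρbar (Qv i) ∧ Qv i ∉ avoid ∧ Qv i ∉ Smin ∪ Saux) ∧
        (∃ σ : Fin gf → Γℚ, Detects (flatType p) p Smin Saux ρbar A Qv σ) ∧
        (∃ σ : Fin go → Γℚ, Detects (ordType p) p Smin Saux ρbar A Qv σ) ∧
        ∃ σ : Fin gb → Γℚ, Detects (flatOrdType p) p Smin Saux ρbar A Qv σ := by
  classical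
  haveI := GalCommon.normal_Qbar
  let b₀ : Module.Basis (Fin 2) k ρbar.V := Module.finBasisOfFinrankEq k ρbar.V ρbar.finrank_eq
  set M := TW.barMat ρbar b₀ with hMdef
  have hM := TW.factorsFinite_barMat ρbar b₀
  have hdet := TW.detCyclotomic_barMat b₀ hres.det
  have hsplit := TW.charpolySplits_barMat ρbar b₀ hres.split
  have hunr : ∀ q : ℕ, q.Prime → q ∉ insert p (Smin ∪ Saux) → ∀ P : ValuationSubring ℚ̄,
      P.LiesOverPrime q → ∀ τ ∈ P.inertiaSubgroupIn ℚ, M τ = 1 := fun q hq hqS P hP τ hτ => by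
    rw [TW.barMat_apply, hres.unramified q hq
      (fun h => hqS (Finset.mem_insert_of_mem (Finset.mem_union_left _ h)))
      (fun h => hqS (h ▸ Finset.mem_insert_self _ _)) P hP τ hτ, LinearMap.toMatrix_one]
  obtain ⟨r, hr⟩ := TW.exists_twPrimes hp2 M hM hdet hsplit
    (TW.span_barMat_eq_top ρbar b₀ hres.absIrr) (TW.bigImage_barMat ρbar b₀ hres.big)
    (insert p (Smin ∪ Saux)) (Finset.mem_insert_self _ _) (by
      intro l hl
      rcases Finset.mem_insert.mp hl with rfl | hl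
      · exact Fact.out
      rcases Finset.mem_union.mp hl with h | h
      · exact (hres.min_prime l h).1
      · exact (hSaux l h).1) hunr
  have hf : ∀ {n : ℕ} (Qv : Fin n → ℕ),
      TW.TangentBound M (insert p (Smin ∪ Saux)) (Finset.univ.image Qv) n → _ :=
    fun Qv hT => exists_detects hp2 hSaux hres b₀ A hA (flatType p) 4
      (fun _ _ h h' => TW.isFlatAt_of_isEquiv h h')
      (fun P hP => TW.localTangentBound_flat hp2 M hM hdet hsplit P hP) Qv hT
  have ho : ∀ {n : ℕ} (Qv : Fin n → ℕ),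
      TW.TangentBound M (insert p (Smin ∪ Saux)) (Finset.univ.image Qv) n → _ :=
    fun Qv hT => exists_detects hp2 hSaux hres b₀ A hA (ordType p) 4
      (fun _ _ h h' => TW.isStrictOrdinaryAt_of_isEquiv h h')
      (fun P hP => TW.localTangentBound_strictOrdinary hp2 M hM hdet hsplit P hP) Qv hT
  have hb : ∀ {n : ℕ} (Qv : Fin n → ℕ),
      TW.TangentBound M (insert p (Smin ∪ Saux)) (Finset.univ.image Qv) n → _ :=
    fun Qv hT => exists_detects hp2 hSaux hres b₀ A hA (flatOrdType p) 3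
      (fun _ _ h h' => ⟨TW.isFlatAt_of_isEquiv h h'.1, TW.isStrictOrdinaryAt_of_isEquiv h h'.2⟩)
      (fun P hP => TW.localTangentBound_flat_strictOrdinary hp2 M hM hdet P hP) Qv hT
  set w := ∑ l ∈ Saux, placeWeight ρbar (A l) with hw
  obtain ⟨qv₀, -, -, hT₀⟩ := hr 0 ∅
  have hle := (hb qv₀ hT₀).1
  refine ⟨r, r - w, r - w, r - w - 1, by omega, by omega, by omega, fun n => ?_⟩
  obtain ⟨Qv, hinj, hQ, hT⟩ := hr n avoid
  exact ⟨Qv, hinj, fun i => ⟨⟨(hQ i).1.prime, (hQ i).1.dvd, fun P hP φ hφ =>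
      TW.distinct_charpoly_of_isAuxPrime ρbar b₀ (hQ i).1 P hP φ hφ⟩, (hQ i).2.2,
      fun h => (hQ i).2.1 (Finset.mem_insert_of_mem h)⟩,
    (hf Qv hT).2 _ (by omega), (ho Qv hT).2 _ (by omega), (hb Qv hT).2 _ (by omega)⟩

end FLTAgent.Lower.Lift
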