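import Fermat.Agent.Lower.Lift.Defs
import Fermat.Agent.ResidualSetup.Ordinary

/-!
# The mod `p` and `p`-adic representations of a semistable curve

`exists_curveRep`: for `p = 3, 5`, a semistable curve with irreducible `p`-torsion and coefficients
whose residue field splits the quadratics over `𝔽_p`, the Tate module gives a `CurveRep`: residual
representation, its lift, and their local properties (from `FLTAgent.ResidualSetup`).
-/

set_option autoImplicit false

noncomputable section

namespace FLTAgent.Lower.Lift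

open FLTAgent.ResidualSetup
open IsLocalRing (ResidueField maximalIdeal)

/-- The representations of a semistable curve over coefficients `O` whose residue field splits
every quadratic polynomial over `𝔽_p`. -/
theorem exists_curveRep (p : ℕ) [Fact p.Prime] (hp : p = 3 ∨ p = 5) (W : WeierstrassCurve ℤ)
    (hΔ : W.Δ ≠ 0) (hW : W.IsSemistableModel) (hirr : W.ModRepIsIrreducible p)
    {O : Type} [CommRing O] [IsDomain O] [IsDiscreteValuationRing O]
    [IsAdicComplete (maximalIdeal O) O] [Finite (ResidueField O)] [CharZero O]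
    (hpO : (p : O) ∈ maximalIdeal O)
    (hsplit : ∀ a b : ZMod p, ∀ i : ZMod p →+* ResidueField O,
      ∃ α β : ResidueField O, α + β = i a ∧ α * β = i b) :
    ∃ (ρbar : ResidualGaloisRep (ResidueField O)) (ρ : GaloisRepAdic O),
      CurveRep W p ρbar ρ := by
  have hp2 : p ≠ 2 := by rcases hp with rfl | rfl <;> decide
  have hpp : p.Prime := Fact.out
  obtain ⟨S⟩ := exists_tateSystem W p hΔ
  have h := isModRep_residual S hΔ hpO
  have hbad : ∀ l : ℕ, l ∈ badPrimes W p ↔ l ≠ p ∧ l.Prime ∧ (l : ℤ) ∣ W.Δ := fun l => by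
    simp [badPrimes, Nat.mem_primeFactors, ← Int.natCast_dvd, hΔ]
  refine ⟨(tateRep S hΔ hpO).residual, tateRep S hΔ hpO, ?_⟩
  refine
    { residual :=
        { absIrr := h.isAbsolutelyIrreducible hΔ hp2 hirr
          det := h.detIsCyclotomic hΔ
          split := h.split hΔ (fun a b => hsplit a b _)
          big := h.big hΔ hW hp2 hirr
          min_prime := ?_
          ramified := ?_
          unipotent := ?_
          unramified := ?_ }
      residual_isEquiv := ⟨ResidualGaloisRep.Equiv.refl _⟩
      det := tateRep_detIsCyclotomic S hΔ hpO hp2 hirr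
      unramified := fun l hl hlS => tateRep_unramified S hΔ hpO hl
        (fun hlp => hlS (hlp ▸ Finset.mem_insert_self _ _))
        (fun hlΔ => hlS (by
          by_cases hlp : l = p
          · exact hlp ▸ Finset.mem_insert_self _ _
          · exact Finset.mem_insert_of_mem ((hbad l).mpr ⟨hlp, hl, hlΔ⟩)))
      unipotent := fun l hl => tateRep_unipotent S hΔ hpO hp2 hirr hW ((hbad l).mp hl).2.1
        ((hbad l).mp hl).1
      ramified := fun l hl =>
        let h' := (hbad l).mp hl
        tateRep_ramified S hΔ hpO hp h'.2.1 h'.2.2 (hW l h'.2.1 h'.2.2)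
      flat := fun hgood => tateRep_flat S hΔ hpO hgood
      ord := fun hpΔ => tateRep_strictOrdinary S hΔ hpO hp hirr hpΔ (hW p hpp hpΔ)
      trace_frob := fun l hl hgood hlp A φ hA hφ =>
        tateRep_trace_frob S hΔ hpO hp2 hirr hl hgood hlp hA hφ }
  · intro l hl
    exact ⟨((hbad l).mp (Finset.mem_filter.mp hl).1).2.1, ((hbad l).mp (Finset.mem_filter.mp hl).1).1⟩
  · intro l hl
    obtain ⟨hb, hv⟩ := Finset.mem_filter.mp hl
    exact h.not_isUnramifiedAt hΔ hW hp2 ((hbad l).mp hb).2.1 ((hbad l).mp hb).1 hv
  · intro l hl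
    obtain ⟨hb, -⟩ := Finset.mem_filter.mp hl
    exact h.isUnipotentOnInertiaAt hΔ hW hp2 ((hbad l).mp hb).2.1 ((hbad l).mp hb).1
  · intro l hl hlS hlp
    refine h.isUnramifiedAt hΔ hW hp2 hl hlp ?_
    by_contra hv
    refine hlS (Finset.mem_filter.mpr ⟨(hbad l).mpr ⟨hlp, hl, ?_⟩, hv⟩)
    by_contra hlΔ
    exact hv (by
      rw [padicValInt.eq_zero_of_not_dvd hlΔ]
      exact dvd_zero p)

end FLTAgent.Lower.Lift
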