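import Fermat.Agent.Lower.Lift.Defs
import Fermat.Agent.Lower.Lift.AuxLevel
import Fermat.Agent.Lower.Lift.AuxChoice
import Fermat.Agent.LowerQ.ModelNode
import Fermat.Agent.ResidualSetup.Residual

/-!
# Mazur's principle for a semistable curve

`isResiduallyModularOfLevel_div_of_not_scalar`: a prime `q ≠ p` can be removed from the squarefree
level of a semistable curve unramified at `q` mod `p`, unless `q ≡ 1 mod p` and the decomposition
group acts by scalars.  An auxiliary prime without elliptic points is added, the argument of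
`FLTAgent.LowerQ` is run, and the prime is removed again.
-/

set_option autoImplicit false

noncomputable section

namespace FLTAgent.Lower.Lift

open scoped WeierstrassCurve.Affine

local notation "ℚ̄" => AlgebraicClosure ℚ

/-- `q` can be removed from the level unless `q ≡ 1 mod p` and the decomposition group at `q`
acts on the `p`-torsion by scalars. `q = 2` is allowed, and so is `p ∣ N`. -/
theorem isResiduallyModularOfLevel_div_of_not_scalar {p : ℕ} [Fact p.Prime] (hp2 : p ≠ 2)
    (W : WeierstrassCurve ℤ) (hΔ : W.Δ ≠ 0) (hW : W.IsSemistableModel)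
    (hirr : W.ModRepIsIrreducible p) {N q : ℕ} [NeZero N] (hN : Squarefree N) (hq : q.Prime)
    (hqp : q ≠ p) (hqN : q ∣ N) (hunr : p ∣ padicValInt q W.Δ)
    (hres : W.IsResiduallyModularOfLevel p N)
    (hns : ¬ (p ∣ q - 1 ∧ ∀ A : ValuationSubring ℚ̄, A.LiesOverPrime q →
      ∀ σ ∈ A.decompositionSubgroup ℚ, ∃ c : ℤ,
        ∀ x : Submodule.torsionBy ℤ ((W.map (Int.castRingHom ℚ))⁄ℚ̄).Point p, σ • x = c • x)) :
    W.IsResiduallyModularOfLevel p (N / q) := by
  obtain ⟨M, rfl⟩ : ∃ M, N = M * q := ⟨N / q, (Nat.div_mul_cancel hqN).symm⟩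
  have : NeZero q := ⟨hq.ne_zero⟩
  have : NeZero M := ⟨left_ne_zero_of_mul (NeZero.ne (M * q))⟩
  have hqM : ¬ q ∣ M := fun h =>
    hq.ne_one (Nat.isUnit_iff.1 (hN q (mul_dvd_mul_right h q)))
  rw [Nat.mul_div_cancel M hq.pos]
  -- an auxiliary prime without elliptic points, removed again at the end
  obtain ⟨r, hr, hrB, hrp, hgood, hr12, hne⟩ :=
    exists_auxPrime hΔ hW hp2 hirr (M * q).primeFactors
  have hrN : ¬ r ∣ M * q := fun h => hrB (Nat.mem_primeFactors.2 ⟨hr, h, NeZero.ne _⟩)
  refine isResiduallyModularOfLevel_of_aux hΔ hp2 hirr hq hqM hqp hr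
    (fun h => hrN (h.mul_right q)) (fun h => hrN (h ▸ dvd_mul_left r M)) hrp hgood hne
    (fun hMr hqMr A hA f hf => LowerQ.Normal.dvd_ord_red_of_noElliptic
      (nuTwo_eq_zero_of_aux hr hr12 (dvd_mul_left r M))
      (nuThree_eq_zero_of_aux hr hr12 (dvd_mul_left r M)) hA (Fact.out : p.Prime).ne_zero hf)
    (fun A hA σ hσ x hx => congrArg Subtype.val (ResidualSetup.smul_eq_of_dvd hΔ hW hp2 hq hqp
      hunr hA hσ ⟨x, (Submodule.mem_torsionBy_iff _ _).mpr (by rw [natCast_zsmul]; exact hx)⟩))
    hns hres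

end FLTAgent.Lower.Lift
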