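import Fermat.Agent.Lower.Lift.Defs
import Fermat.Agent.Lower.Lift.HopP.Main
import Fermat.Agent.Lower.Lift.HeckeMod.Exists
import Fermat.Agent.Lower.Lift.HopAsm.Hop

/-!
# The automorphic side of the lifting theorem

Hecke modules at squarefree levels with their extensions to auxiliary levels (`exists_heckeMod`),
and the degeneracy data raising one prime `q ≠ p` (`exists_hop`, from `HopAsm`) or `p` itself
(`exists_hop_p`, from `HopP`).  Each theorem collects the result proved in its directory.
-/

set_option autoImplicit false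

noncomputable section

namespace FLTAgent.Lower.Lift

open IsLocalRing (ResidueField maximalIdeal)
open FLTAgent.Lower

local notation "ℚ̄" => AlgebraicClosure ℚ
local notation "Γℚ" => (AlgebraicClosure ℚ ≃ₐ[ℚ] AlgebraicClosure ℚ)

variable {O : Type} [CommRing O] [IsDomain O] [IsDiscreteValuationRing O]
  [IsAdicComplete (maximalIdeal O) O] [Finite (ResidueField O)] [CharZero O]
  {p : ℕ} [Fact p.Prime]

/-- The module of level `N`: it contains every point of level `N`, and extends to auxiliary
levels. -/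
theorem exists_heckeMod (hp2 : p ≠ 2) (hp : (p : O) ∈ maximalIdeal O)
    {ρbar : ResidualGaloisRep (ResidueField O)} {Smin : Finset ℕ} (hres : Residual p Smin ρbar)
    {N : ℕ} [NeZero N] (hN : Squarefree N) (hSmin : Smin ⊆ N.primeFactors)
    {loc : LocalType} (hloc : LevelCase p N ρbar loc) (hsys : HasSystem p N ρbar) :
    ∃ B : HeckeMod loc p (levelPrimes p N) (unipPrimes p N) ρbar,
      IsModular N B ∧
      (∀ (loc' : LocalType) (B' : HeckeMod loc' p (levelPrimes p N) (unipPrimes p N) ρbar),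
        IsModular N B' → Contains B B') ∧
      ∀ (n r : ℕ) (Qv : Fin r → ℕ), IsAuxSet p N n ρbar Qv → Nonempty (HeckeLevel B n Qv) :=
  exists_heckeMod_proof hp2 hp hres hN hSmin hloc hsys

/-- Raising a prime `q ≠ p`. -/
theorem exists_hop (hp2 : p ≠ 2) (hp : (p : O) ∈ maximalIdeal O)
    {ρbar : ResidualGaloisRep (ResidueField O)} {Smin : Finset ℕ} (hres : Residual p Smin ρbar)
    {N : ℕ} [NeZero N] (hN : Squarefree N) (hSmin : Smin ⊆ N.primeFactors)
    {loc : LocalType} (hloc : LevelCase p N ρbar loc) (hsys : HasSystem p N ρbar)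
    {q : ℕ} [NeZero (N * q)] (hq : q.Prime) (hqN : ¬ q ∣ N) (hqp : q ≠ p)
    (hcong : ∀ (A : ValuationSubring ℚ̄) (φ : Γℚ), A.LiesOverPrime q → A.IsFrobeniusAt φ q →
      LinearMap.trace (ResidueField O) ρbar.V (ρbar.ρ φ) ^ 2 = ((q : ResidueField O) + 1) ^ 2) :
    ∃ H : Hop loc loc p N q ρbar,
      IsModular N H.old ∧ IsModular (N * q) H.new ∧
      (∀ (loc' : LocalType) (B' : HeckeMod loc' p (levelPrimes p N) (unipPrimes p N) ρbar),
        IsModular N B' → Contains H.old B') ∧
      ∀ (n r : ℕ) (Qv : Fin r → ℕ), IsAuxSet p (N * q) n ρbar Qv →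
        Nonempty (HopLevel H n Qv) :=
  HopAsm.exists_hop_of_ne hp2 hp hres hN hSmin hloc hsys hq hqN hqp hcong

/-- Raising `p` from a level prime to `p`. -/
theorem exists_hop_p (hp2 : p ≠ 2) (hp : (p : O) ∈ maximalIdeal O)
    {ρbar : ResidualGaloisRep (ResidueField O)} {Smin : Finset ℕ} (hres : Residual p Smin ρbar)
    {N : ℕ} [NeZero N] [NeZero (N * p)] (hN : Squarefree N) (hSmin : Smin ⊆ N.primeFactors)
    (hpN : ¬ p ∣ N) (hsys : HasSystem p N ρbar)
    (hord : (GaloisRepAdic.ofResidualGaloisRep ρbar).IsStrictOrdinaryAt p) :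
    ∃ H : Hop (flatType p) (ordType p) p N p ρbar,
      IsModular N H.old ∧ IsModular (N * p) H.new ∧
      (∀ (loc' : LocalType) (B' : HeckeMod loc' p (levelPrimes p N) (unipPrimes p N) ρbar),
        IsModular N B' → Contains H.old B') ∧
      ∀ (n r : ℕ) (Qv : Fin r → ℕ), IsAuxSet p (N * p) n ρbar Qv →
        Nonempty (HopLevel H n Qv) := by
  exact HopP.exists_hop_p hp2 hp hres hN hSmin hpN hsys hord

end FLTAgent.Lower.Lift
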